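/-
S32lib / Cheb (helper8): **the quadratic relation passes to powers.**  If `A² - tA + d = 0` in an
`R`-algebra then `(A^j)² - s_j A^j + d^j = 0`, `s_j = powTr t d j` the universal power sums
(`B = t - A` commutes with `A`, `AB = d`, `A^j + B^j = s_j`).
-/
import Mathlib
import Fermat.Agent.S31lib.TC.PowTrace

set_option autoImplicit false
set_option linter.unusedSectionVars false

noncomputable section

namespace Fermat.Agent.S32lib

open Fermat.Agent.S31lib.TC

section quadpow

variable {R 𝒜 : Type*} [CommRing R] [Ring 𝒜] [Algebra R 𝒜]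

theorem quad_pow (A : 𝒜) (t d : R) (h : A * A - t • A + d • (1 : 𝒜) = 0) (j : ℕ) :
    A ^ j * A ^ j - powTr t d j • A ^ j + d ^ j • (1 : 𝒜) = 0 := by
  set B : 𝒜 := t • (1 : 𝒜) - A with hB
  have hAB : A * B = d • (1 : 𝒜) := by
    have h' : A * A + d • (1 : 𝒜) = t • A := by
      rw [← sub_eq_zero, ← h]
      abel
    rw [hB, mul_sub, mul_smul_comm, mul_one, ← h']
    abel
  have hcomm : Commute A B := by
    rw [hB]
    exact (Commute.smul_right (Commute.one_right A) t).sub_right (Commute.refl A)
  have hBA : B * A = d • (1 : 𝒜) := by rw [← hcomm.eq, hAB]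
  have hsum : ∀ j, A ^ j + B ^ j = powTr t d j • (1 : 𝒜) := by
    intro j
    induction j using Nat.twoStepInduction with
    | zero =>
      rw [pow_zero, pow_zero, powTr_zero, ofNat_smul_eq_nsmul, two_nsmul]
    | one =>
      rw [pow_one, pow_one, powTr_one, hB]
      abel
    | more j h1 h2 =>
      have e : A ^ (j + 2) + B ^ (j + 2) =
          (A + B) * (A ^ (j + 1) + B ^ (j + 1)) - (A * B) * (A ^ j + B ^ j) := by
        have e1 : A * B ^ (j + 1) = A * B * B ^ j := by rw [pow_succ', mul_assoc]
        have e2 : B * A ^ (j + 1) = A * B * A ^ j := by rw [pow_succ', ← mul_assoc, hcomm.eq]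
        have e3 : A ^ (j + 2) = A * A ^ (j + 1) := pow_succ' A (j + 1)
        have e4 : B ^ (j + 2) = B * B ^ (j + 1) := pow_succ' B (j + 1)
        rw [add_mul, mul_add, mul_add, mul_add (A * B), e1, e2, e3, e4]
        abel
      have hAB' : A + B = t • (1 : 𝒜) := by
        rw [hB]
        abel
      rw [e, h1, h2, hAB', hAB, powTr_add_two, smul_mul_smul_comm, smul_mul_smul_comm, one_mul,
        ← sub_smul]
  have h1 : A ^ j * A ^ j - powTr t d j • A ^ j + d ^ j • (1 : 𝒜) =
      A ^ j * A ^ j - (A ^ j + B ^ j) * A ^ j + (A * B) ^ j := by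
    rw [hsum, hAB, smul_mul_assoc, one_mul, smul_pow, one_pow]
  rw [h1, hcomm.mul_pow, add_mul, (hcomm.pow_pow j j).eq]
  abel

end quadpow

end Fermat.Agent.S32lib
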