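/-
S32lib / Cheb (helper8): **from Frobenius elements to all of `G_ℚ`** (weak Chebotarev + adic
continuity).  `M, ρ' : G_ℚ → M₂(O)` adically continuous for a Hausdorff ideal `J`.  If for the good
primes `ℓ` every Frobenius `φ` satisfies `M φ² - a_ℓ M φ + ℓ = 0`, `tr ρ' φ = a_ℓ`, `det ρ' φ = ℓ`,
and every element of `G_ℚ` is approximated on finite levels by powers of good Frobenius elements,
then `M σ² - tr(ρ' σ) M σ + det(ρ' σ) = 0` for every `σ`.
-/
import Mathlib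
import Fermat.Prelude.Def_GaloisRep_Adic
import Fermat.Agent.S32lib.Cheb.QuadPow
import Fermat.Agent.S31lib.TC.TraceCompare

set_option autoImplicit false
set_option linter.unusedSectionVars false
set_option linter.style.haveILetI false

noncomputable section

namespace Fermat.Agent.S32lib

open Matrix Fermat.Agent.S31lib.TC

/-- `ℚ̄` -/
local notation "Qb" => AlgebraicClosure ℚ
/-- `G_ℚ` -/
local notation "GQ" => (AlgebraicClosure ℚ ≃ₐ[ℚ] AlgebraicClosure ℚ)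

section mat

variable {R : Type*} [CommRing R]

/-- Cayley–Hamilton for 2×2 matrices. -/
theorem cayley_two (X : Matrix (Fin 2) (Fin 2) R) :
    X * X - X.trace • X + X.det • (1 : Matrix (Fin 2) (Fin 2) R) = 0 := by
  ext i j
  fin_cases i <;> fin_cases j <;>
    simp [Matrix.mul_apply, Fin.sum_univ_two, Matrix.trace_fin_two, Matrix.det_fin_two] <;> ring

/-- traces of powers of a 2×2 matrix. -/
theorem trace_pow_two (X : Matrix (Fin 2) (Fin 2) R) (j : ℕ) :
    (X ^ j).trace = powTr X.trace X.det j := by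
  have hCH : X * X = X.trace • X - X.det • (1 : Matrix (Fin 2) (Fin 2) R) := by
    rw [← sub_eq_zero, ← cayley_two X]
    abel
  have hrec : ∀ j, X ^ (j + 2) = X.trace • X ^ (j + 1) - X.det • X ^ j := by
    intro j
    rw [pow_add, pow_two, hCH, mul_sub, mul_smul_comm, mul_smul_comm, mul_one, ← pow_succ]
  induction j using Nat.twoStepInduction with
  | zero =>
    rw [pow_zero, Matrix.trace_one, powTr_zero, Fintype.card_fin]
    norm_num
  | one => rw [pow_one, powTr_one]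
  | more j h1 h2 =>
    rw [hrec, Matrix.trace_sub, Matrix.trace_smul, Matrix.trace_smul, h1, h2, powTr_add_two,
      smul_eq_mul, smul_eq_mul]

end mat

section transfer

variable {O : Type*} [CommRing O] (J : Ideal O) [IsHausdorff J O]

/-- **the Cayley–Hamilton relation for all of `G_ℚ`.** -/
theorem quad_of_frobenius (M ρ' : GQ →* Matrix (Fin 2) (Fin 2) O)
    (hcM : ∀ n : ℕ, ∃ L : IntermediateField ℚ Qb, FiniteDimensional ℚ L ∧
      ∀ σ : GQ, (∀ x ∈ L, σ x = x) → ∀ i j, (M σ - 1) i j ∈ J ^ n)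
    (hcρ : ∀ n : ℕ, ∃ L : IntermediateField ℚ Qb, FiniteDimensional ℚ L ∧
      ∀ σ : GQ, (∀ x ∈ L, σ x = x) → ∀ i j, (ρ' σ - 1) i j ∈ J ^ n)
    (good : ℕ → Prop) (a : ℕ → O)
    (hM : ∀ ℓ, good ℓ → ∀ A : ValuationSubring Qb, A.LiesOverPrime ℓ → ∀ φ : GQ,
      A.IsFrobeniusAt φ ℓ →
        M φ * M φ - a ℓ • M φ + (ℓ : O) • (1 : Matrix (Fin 2) (Fin 2) O) = 0)
    (hρ : ∀ ℓ, good ℓ → ∀ A : ValuationSubring Qb, A.LiesOverPrime ℓ → ∀ φ : GQ,
      A.IsFrobeniusAt φ ℓ → (ρ' φ).trace = a ℓ ∧ (ρ' φ).det = (ℓ : O))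
    (hWC : ∀ L : IntermediateField ℚ Qb, FiniteDimensional ℚ L → ∀ σ : GQ,
      ∃ (ℓ : ℕ) (A : ValuationSubring Qb) (φ : GQ) (j : ℕ), good ℓ ∧ A.LiesOverPrime ℓ ∧
        A.IsFrobeniusAt φ ℓ ∧ ∀ x ∈ L, (φ ^ j) x = σ x) (σ : GQ) :
    M σ * M σ - (ρ' σ).trace • M σ + (ρ' σ).det • (1 : Matrix (Fin 2) (Fin 2) O) = 0 := by
  classical
  ext i₀ j₀
  rw [Matrix.zero_apply]
  refine eq_zero_of_forall_mem_pow' J fun n => ?_
  obtain ⟨L₁, hL₁fd, hL₁⟩ := hcM n
  obtain ⟨L₂, hL₂fd, hL₂⟩ := hcρ n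
  haveI := hL₁fd
  haveI := hL₂fd
  obtain ⟨ℓ, A, φ, j, hg, hA, hF, hφ⟩ := hWC (L₁ ⊔ L₂) inferInstance σ
  set τ : GQ := φ ^ j with hτ
  -- the reduction map
  let q : Matrix (Fin 2) (Fin 2) O →+* Matrix (Fin 2) (Fin 2) (O ⧸ J ^ n) :=
    (Ideal.Quotient.mk (J ^ n)).mapMatrix
  have hq0 : ∀ X : Matrix (Fin 2) (Fin 2) O, q X = 0 → ∀ i j, X i j ∈ J ^ n := by
    intro X hX i j
    have := congrFun (congrFun hX i) j
    rw [RingHom.mapMatrix_apply, Matrix.map_apply, Matrix.zero_apply,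
      Ideal.Quotient.eq_zero_iff_mem] at this
    exact this
  have hq1 : ∀ X : Matrix (Fin 2) (Fin 2) O, (∀ i j, (X - 1) i j ∈ J ^ n) → q X = 1 := by
    intro X hX
    rw [← sub_eq_zero, ← map_one q, ← map_sub]
    ext i j
    rw [RingHom.mapMatrix_apply, Matrix.map_apply, Matrix.zero_apply,
      Ideal.Quotient.eq_zero_iff_mem]
    exact hX i j
  have hfix : ∀ x ∈ L₁ ⊔ L₂, (τ⁻¹ * σ) x = x := by
    intro x hx
    rw [AlgEquiv.mul_apply, ← hφ x hx]
    exact τ.symm_apply_apply x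
  have hσ : σ = τ * (τ⁻¹ * σ) := by rw [mul_inv_cancel_left]
  have hqM : q (M σ) = q (M τ) := by
    conv_lhs => rw [hσ, map_mul, map_mul]
    rw [hq1 _ (hL₁ _ (fun x hx => hfix x (le_sup_left (a := L₁) hx))), mul_one]
  have hqρ : q (ρ' σ) = q (ρ' τ) := by
    conv_lhs => rw [hσ, map_mul, map_mul]
    rw [hq1 _ (hL₂ _ (fun x hx => hfix x (le_sup_right (b := L₂) hx))), mul_one]
  -- the relation for `τ`
  have hτq : M τ * M τ - (ρ' τ).trace • M τ + (ρ' τ).det • (1 : Matrix (Fin 2) (Fin 2) O) = 0 := by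
    obtain ⟨h1, h2⟩ := hρ ℓ hg A hA φ hF
    rw [hτ, map_pow, map_pow, trace_pow_two, Matrix.det_pow, h1, h2]
    exact quad_pow (M φ) (a ℓ) (ℓ : O) (hM ℓ hg A hA φ hF) j
  -- traces and determinants commute with `q`
  have htr : ∀ X : Matrix (Fin 2) (Fin 2) O,
      Ideal.Quotient.mk (J ^ n) X.trace = (q X).trace := by
    intro X
    rw [Matrix.trace_fin_two, Matrix.trace_fin_two, map_add]
    rfl
  have hdet : ∀ X : Matrix (Fin 2) (Fin 2) O,
      Ideal.Quotient.mk (J ^ n) X.det = (q X).det := fun X => RingHom.map_det _ X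
  have hqsmul : ∀ (c : O) (X : Matrix (Fin 2) (Fin 2) O),
      q (c • X) = Ideal.Quotient.mk (J ^ n) c • q X := by
    intro c X
    ext i j
    simp [q]
  have hQ : ∀ g : GQ, q (M g * M g - (ρ' g).trace • M g +
      (ρ' g).det • (1 : Matrix (Fin 2) (Fin 2) O)) =
      q (M g) * q (M g) - (q (ρ' g)).trace • q (M g) + (q (ρ' g)).det • 1 := by
    intro g
    rw [map_add, map_sub, map_mul, hqsmul, hqsmul, map_one, htr, hdet]
  apply hq0
  rw [hQ σ, hqM, hqρ, ← hQ τ, hτq, map_zero]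

end transfer

end Fermat.Agent.S32lib
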